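import Mathlib
import Fermat.Agent.S17.R.PoleOrder
import Fermat.Agent.S17.R.FbRatL
import Fermat.Agent.S17.R.FbInf

/-!
# S17, strand H, seam leaf X.phi: one good basis `φ` of `L(m0 · ∞)` for `Fb N`

The exit of strand H feeds ONE family `φ` to the blocks C, D1, D2, D3, D4 and F.  This file
produces it for the modular function field `Fb N` and the cusp `∞`:

* `exists_flag_basis` (level-free): from a basis `b'` of `L(m v₀)` and a spanning family `b` of
  `L((m+1) v₀)`, with `l((m+1) v₀) = l(m v₀) + 1`, the family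
  `Fin.snoc (Function.update b' i₀ 1) (b j)` is a basis of `L((m+1) v₀)`; it contains `1`, its
  last member has pole order exactly `m + 1` at `v₀` and all the others have pole order at most
  `m`.
* `exists_good_phi` (modular): for every large `m0` a basis `φ : Fin (r + 1) → Fb N` of
  `L(m0 · ∞)` made of Galois-fixed functions, with `φ i1 = 1`, `i1` not the last index, the last
  member of order exactly `-m0` at `∞`, all the others of order at least `-(m0 - 1)`, and
  `r + 1 = m0 + 1 - g`.
-/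

set_option autoImplicit false

namespace Fermat.Agent.S17.H.GoodPhi

open AlgebraicCurve ModularCurve
open Fermat.Agent.S17.R

section LevelFree

variable {K F : Type*} [Field K] [Field F] [Algebra K F]

/-- The value of `n · v₀` at `v₀`. -/
theorem nsmul_apply_self (v₀ : Place K F) (n : ℕ) :
    ((n : ℤ) • Finsupp.single v₀ (1 : ℤ) : Divisor K F) v₀ = (n : ℤ) := by
  rw [Finsupp.smul_apply, Finsupp.single_eq_same, smul_eq_mul, mul_one]

/-- The value of `n · v₀` off `v₀`. -/
theorem nsmul_apply_of_ne {v₀ v : Place K F} (hv : v ≠ v₀) (n : ℕ) :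
    ((n : ℤ) • Finsupp.single v₀ (1 : ℤ) : Divisor K F) v = 0 := by
  rw [Finsupp.smul_apply, Finsupp.single_eq_of_ne hv, smul_zero]

/-- `1 ∈ L(n · v₀)`. -/
theorem one_mem (v₀ : Place K F) (n : ℕ) :
    (1 : F) ∈ riemannRochSpace ((n : ℤ) • Finsupp.single v₀ (1 : ℤ)) := by
  rw [mem_L_of_ne_zero one_ne_zero]
  intro v
  rw [Place.ord_one]
  by_cases hv : v = v₀
  · rw [hv, nsmul_apply_self]
    omega
  · rw [nsmul_apply_of_ne hv]
    omega

/-- The order at `v₀` of a member of `L(n · v₀)` is at least `-n`. -/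
theorem neg_le_ord_of_mem {v₀ : Place K F} {n : ℕ} {f : F}
    (hf : f ∈ riemannRochSpace ((n : ℤ) • Finsupp.single v₀ (1 : ℤ))) :
    -(n : ℤ) ≤ v₀.ord f := by
  rcases mem_L_iff.mp hf with h | h
  · rw [h, Place.ord_zero]
    omega
  · have h1 := h v₀
    rwa [nsmul_apply_self] at h1

/-- A member of `L((n+1) · v₀)` outside `L(n · v₀)` has order exactly `-(n+1)` at `v₀`. -/
theorem ord_eq_of_notMem {v₀ : Place K F} {n : ℕ} {f : F}
    (hf : f ∈ riemannRochSpace (((n + 1 : ℕ) : ℤ) • Finsupp.single v₀ (1 : ℤ)))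
    (hf' : f ∉ riemannRochSpace ((n : ℤ) • Finsupp.single v₀ (1 : ℤ))) :
    v₀.ord f = -((n + 1 : ℕ) : ℤ) := by
  have hf0 : f ≠ 0 := fun h => hf' (by rw [h]; exact Submodule.zero_mem _)
  have h1 := (mem_L_of_ne_zero hf0).mp hf
  have h2 := neg_le_ord_of_mem hf
  by_contra hne
  apply hf'
  rw [mem_L_of_ne_zero hf0]
  intro v
  by_cases hv : v = v₀
  · rw [hv, nsmul_apply_self]
    omega
  · have h3 := h1 v
    rw [nsmul_apply_of_ne hv] at h3 ⊢
    exact h3

/-- `L(n · v₀) ≤ L((n+1) · v₀)`. -/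
theorem L_nsmul_le_succ (v₀ : Place K F) (n : ℕ) :
    riemannRochSpace ((n : ℤ) • Finsupp.single v₀ (1 : ℤ)) ≤
      riemannRochSpace (((n + 1 : ℕ) : ℤ) • Finsupp.single v₀ (1 : ℤ)) := by
  refine L_mono (Finsupp.le_def.mpr fun v => ?_)
  by_cases hv : v = v₀
  · rw [hv, nsmul_apply_self, nsmul_apply_self]
    omega
  · rw [nsmul_apply_of_ne hv, nsmul_apply_of_ne hv]

/-- **The flag basis.**  If `l((m+1) v₀) = l(m v₀) + 1`, a basis `b'` of `L(m v₀)` and a spanning
family `b` of `L((m+1) v₀)` give the basis `Fin.snoc (Function.update b' i₀ 1) (b j)` of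
`L((m+1) v₀)`: it contains `1`, its last member has order exactly `-(m+1)` at `v₀`, and all the
others lie in `L(m v₀)`. -/
theorem exists_flag_basis [IsAlgClosed K] [CharZero K] [Algebra.EssFiniteType K F]
    (htr : Algebra.trdeg K F = 1) (v₀ : Place K F) {m : ℕ}
    (hfr : Module.finrank K ↥(riemannRochSpace (((m + 1 : ℕ) : ℤ) • Finsupp.single v₀ (1 : ℤ))) =
      Module.finrank K ↥(riemannRochSpace ((m : ℤ) • Finsupp.single v₀ (1 : ℤ))) + 1)
    {n' : ℕ} (b' : Fin n' → F) (hb'li : LinearIndependent K b')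
    (hb' : Submodule.span K (Set.range b') =
      riemannRochSpace ((m : ℤ) • Finsupp.single v₀ (1 : ℤ)))
    {n : ℕ} (b : Fin n → F)
    (hb : Submodule.span K (Set.range b) =
      riemannRochSpace (((m + 1 : ℕ) : ℤ) • Finsupp.single v₀ (1 : ℤ))) :
    ∃ (i₀ : Fin n') (j : Fin n),
      LinearIndependent K (Fin.snoc (α := fun _ => F) (Function.update b' i₀ 1) (b j)) ∧
      Submodule.span K (Set.range (Fin.snoc (α := fun _ => F) (Function.update b' i₀ 1) (b j))) =
        riemannRochSpace (((m + 1 : ℕ) : ℤ) • Finsupp.single v₀ (1 : ℤ)) ∧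
      v₀.ord (b j) = -((m + 1 : ℕ) : ℤ) ∧
      (∀ i, Function.update b' i₀ 1 i ∈
        riemannRochSpace ((m : ℤ) • Finsupp.single v₀ (1 : ℤ))) ∧
      n' = Module.finrank K ↥(riemannRochSpace ((m : ℤ) • Finsupp.single v₀ (1 : ℤ))) := by
  classical
  have hfinV : Module.Finite K
      ↥(riemannRochSpace (((m + 1 : ℕ) : ℤ) • Finsupp.single v₀ (1 : ℤ))) := finite_L htr _
  have hfinW : Module.Finite K
      ↥(riemannRochSpace ((m : ℤ) • Finsupp.single v₀ (1 : ℤ))) := finite_L htr _
  have hWV := L_nsmul_le_succ (K := K) (F := F) v₀ m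
  -- `n' = l(m v₀)`
  have hn' : n' = Module.finrank K ↥(riemannRochSpace ((m : ℤ) • Finsupp.single v₀ (1 : ℤ))) := by
    have h := finrank_span_eq_card hb'li
    rw [hb', Fintype.card_fin] at h
    exact h.symm
  -- some `b j` is outside `L(m v₀)`
  have hex : ∃ j, b j ∉ riemannRochSpace ((m : ℤ) • Finsupp.single v₀ (1 : ℤ)) := by
    by_contra hcon
    have hall : ∀ j, b j ∈ riemannRochSpace ((m : ℤ) • Finsupp.single v₀ (1 : ℤ)) :=
      fun j => by_contra fun h => hcon ⟨j, h⟩
    have hVW : riemannRochSpace (((m + 1 : ℕ) : ℤ) • Finsupp.single v₀ (1 : ℤ)) ≤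
        riemannRochSpace ((m : ℤ) • Finsupp.single v₀ (1 : ℤ)) := by
      rw [← hb]
      exact Submodule.span_le.mpr (by rintro _ ⟨j, rfl⟩; exact hall j)
    have h := Submodule.finrank_mono hVW
    omega
  obtain ⟨j, hj⟩ := hex
  have hjV : b j ∈ riemannRochSpace (((m + 1 : ℕ) : ℤ) • Finsupp.single v₀ (1 : ℤ)) := by
    rw [← hb]
    exact Submodule.subset_span ⟨j, rfl⟩
  -- `1 = ∑ c i • b' i` with some `c i₀ ≠ 0`
  have h1W : (1 : F) ∈ Submodule.span K (Set.range b') := by
    rw [hb']
    exact one_mem v₀ m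
  obtain ⟨c, hc⟩ := (Submodule.mem_span_range_iff_exists_fun K).mp h1W
  have hex0 : ∃ i₀, c i₀ ≠ 0 := by
    by_contra hcon
    have hall : ∀ i, c i = 0 := fun i => by_contra fun h => hcon ⟨i, h⟩
    have h10 : (1 : F) = 0 := by
      rw [← hc]
      exact Finset.sum_eq_zero fun i _ => by rw [hall i, zero_smul]
    exact one_ne_zero h10
  obtain ⟨i₀, hi₀⟩ := hex0
  have hu_self : Function.update b' i₀ 1 i₀ = 1 := Function.update_self _ _ _
  have hu_ne : ∀ i, i ≠ i₀ → Function.update b' i₀ 1 i = b' i :=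
    fun i hi => Function.update_of_ne hi _ _
  have huW : ∀ i, Function.update b' i₀ 1 i ∈
      riemannRochSpace ((m : ℤ) • Finsupp.single v₀ (1 : ℤ)) := by
    intro i
    by_cases hi : i = i₀
    · rw [hi, hu_self]
      exact one_mem v₀ m
    · rw [hu_ne i hi, ← hb']
      exact Submodule.subset_span ⟨i, rfl⟩
  -- the exchanged family still spans `L(m v₀)`
  have hspanu : Submodule.span K (Set.range (Function.update b' i₀ 1)) =
      riemannRochSpace ((m : ℤ) • Finsupp.single v₀ (1 : ℤ)) := by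
    apply le_antisymm
    · exact Submodule.span_le.mpr (by rintro _ ⟨i, rfl⟩; exact huW i)
    · rw [← hb']
      refine Submodule.span_le.mpr ?_
      rintro _ ⟨i, rfl⟩
      have hmem_ne : ∀ k, k ≠ i₀ →
          b' k ∈ Submodule.span K (Set.range (Function.update b' i₀ 1)) := by
        intro k hk
        have h : Function.update b' i₀ 1 k ∈
            Submodule.span K (Set.range (Function.update b' i₀ 1)) :=
          Submodule.subset_span ⟨k, rfl⟩
        rwa [hu_ne k hk] at h
      by_cases hi : i = i₀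
      · have hsum : c i₀ • b' i₀ = 1 - ∑ k ∈ Finset.univ.erase i₀, c k • b' k := by
          rw [← hc, ← Finset.add_sum_erase Finset.univ (fun k => c k • b' k) (Finset.mem_univ i₀)]
          exact (add_sub_cancel_right _ _).symm
        have hb'i₀ : b' i₀ = (c i₀)⁻¹ • (1 - ∑ k ∈ Finset.univ.erase i₀, c k • b' k) := by
          rw [← hsum, inv_smul_smul₀ hi₀]
        rw [hi]
        show b' i₀ ∈ _
        rw [hb'i₀]
        refine Submodule.smul_mem _ _ (Submodule.sub_mem _ ?_ ?_)
        · have h : Function.update b' i₀ 1 i₀ ∈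
              Submodule.span K (Set.range (Function.update b' i₀ 1)) :=
            Submodule.subset_span ⟨i₀, rfl⟩
          rwa [hu_self] at h
        · exact Submodule.sum_mem _ fun k hk =>
            Submodule.smul_mem _ _ (hmem_ne k (Finset.ne_of_mem_erase hk))
      · exact hmem_ne i hi
  have hφc : ∀ i : Fin n',
      Fin.snoc (α := fun _ => F) (Function.update b' i₀ 1) (b j) i.castSucc =
        Function.update b' i₀ 1 i := fun i => Fin.snoc_castSucc _ _ _
  have hφl : Fin.snoc (α := fun _ => F) (Function.update b' i₀ 1) (b j) (Fin.last n') = b j :=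
    Fin.snoc_last _ _
  have hφV : Submodule.span K
      (Set.range (Fin.snoc (α := fun _ => F) (Function.update b' i₀ 1) (b j))) ≤
      riemannRochSpace (((m + 1 : ℕ) : ℤ) • Finsupp.single v₀ (1 : ℤ)) := by
    refine Submodule.span_le.mpr ?_
    rintro _ ⟨i, rfl⟩
    refine Fin.lastCases ?_ (fun k => ?_) i
    · rw [hφl]
      exact hjV
    · rw [hφc]
      exact hWV (huW k)
  have hWφ : riemannRochSpace ((m : ℤ) • Finsupp.single v₀ (1 : ℤ)) ≤ Submodule.span K
      (Set.range (Fin.snoc (α := fun _ => F) (Function.update b' i₀ 1) (b j))) := by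
    rw [← hspanu]
    refine Submodule.span_le.mpr ?_
    rintro _ ⟨i, rfl⟩
    have h : Fin.snoc (α := fun _ => F) (Function.update b' i₀ 1) (b j) i.castSucc ∈
        Submodule.span K
          (Set.range (Fin.snoc (α := fun _ => F) (Function.update b' i₀ 1) (b j))) :=
      Submodule.subset_span ⟨_, rfl⟩
    rwa [hφc] at h
  have hlt : riemannRochSpace ((m : ℤ) • Finsupp.single v₀ (1 : ℤ)) < Submodule.span K
      (Set.range (Fin.snoc (α := fun _ => F) (Function.update b' i₀ 1) (b j))) := by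
    refine lt_of_le_of_ne hWφ fun heq => hj ?_
    have h : Fin.snoc (α := fun _ => F) (Function.update b' i₀ 1) (b j) (Fin.last n') ∈
        Submodule.span K
          (Set.range (Fin.snoc (α := fun _ => F) (Function.update b' i₀ 1) (b j))) :=
      Submodule.subset_span ⟨_, rfl⟩
    rw [hφl] at h
    rw [heq]
    exact h
  have hspanφ : Submodule.span K
      (Set.range (Fin.snoc (α := fun _ => F) (Function.update b' i₀ 1) (b j))) =
      riemannRochSpace (((m + 1 : ℕ) : ℤ) • Finsupp.single v₀ (1 : ℤ)) := by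
    have : Module.Finite K ↥(Submodule.span K
        (Set.range (Fin.snoc (α := fun _ => F) (Function.update b' i₀ 1) (b j)))) :=
      Submodule.finiteDimensional_of_le hφV
    have h1 := Submodule.finrank_lt_finrank_of_lt hlt
    exact Submodule.eq_of_le_of_finrank_le hφV (by omega)
  refine ⟨i₀, j, ?_, hspanφ, ord_eq_of_notMem hjV hj, huW, hn'⟩
  rw [linearIndependent_iff_card_eq_finrank_span, Fintype.card_fin, Set.finrank, hspanφ]
  omega

end LevelFree

section Modular

local notation "Qb" => AlgebraicClosure ℚ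
local notation "Fb" => modularFunctionFieldBar

/-- The divisors `n · ∞` are Galois-stable. -/
theorem galois_smul_zsmul_infPlace (N : ℕ) [NeZero N] (n : ℤ) (σ : Qb ≃ₐ[ℚ] Qb) :
    arithmeticGalois (modularFunctionFieldFull N) σ •
        (n • Finsupp.single (infPlace N) (1 : ℤ) : Divisor Qb (Fb N)) =
      n • Finsupp.single (infPlace N) (1 : ℤ) := by
  have h : (n • Finsupp.single (infPlace N) (1 : ℤ) : Divisor Qb (Fb N)) =
      Finsupp.single (infPlace N) n := by
    rw [Finsupp.smul_single, smul_eq_mul, mul_one]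
  rw [h, SemilinearAut.smul_single, smul_infPlace]

/-- **The good family `φ` (leaf X.phi).**  For every large `m0` there is a basis
`φ : Fin (r + 1) → Fb N` of `L(m0 · ∞)` made of Galois-fixed functions, containing `1` at an
index `i1` which is not the last one, whose last member has order exactly `-m0` at `∞` and all
of whose other members have order at least `-(m0 - 1)`; and `r + 1 = m0 + 1 - g`. -/
theorem exists_good_phi (N : ℕ) [NeZero N] :
    ∃ n₀ : ℕ, ∀ m0 : ℕ, n₀ ≤ m0 →
      ∃ (r : ℕ) (φ : Fin (r + 1) → Fb N) (i1 : Fin (r + 1)),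
        (∀ i, ∀ σ : Qb ≃ₐ[ℚ] Qb,
          arithmeticGalois (modularFunctionFieldFull N) σ • φ i = φ i) ∧
        LinearIndependent Qb φ ∧
        Submodule.span Qb (Set.range φ) =
          riemannRochSpace ((m0 : ℤ) • Finsupp.single (infPlace N) (1 : ℤ)) ∧
        φ i1 = 1 ∧ i1 ≠ Fin.last r ∧
        (infPlace N).ord (φ (Fin.last r)) = -(m0 : ℤ) ∧
        (∀ i, i ≠ Fin.last r → -((m0 : ℤ) - 1) ≤ (infPlace N).ord (φ i)) ∧
        ((r : ℤ) + 1 = (m0 : ℤ) + 1 - (gR Qb (Fb N) : ℤ)) := by
  classical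
  have htr := Fermat.Agent.S30.HeckeInputs.trdeg_bar N
  obtain ⟨n₁, hn₁⟩ := finrank_L_nsmul_single (K := Qb) (F := Fb N) htr (infPlace N)
  refine ⟨n₁ + 1, fun m0 hm0 => ?_⟩
  obtain ⟨m, rfl⟩ : ∃ m, m0 = m + 1 := ⟨m0 - 1, by omega⟩
  have hWr := hn₁ m (by omega)
  have hVr := hn₁ (m + 1) (by omega)
  have hfr : Module.finrank Qb
      ↥(riemannRochSpace (((m + 1 : ℕ) : ℤ) • Finsupp.single (infPlace N) (1 : ℤ))) =
      Module.finrank Qb
        ↥(riemannRochSpace ((m : ℤ) • Finsupp.single (infPlace N) (1 : ℤ))) + 1 := by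
    have h : ((Module.finrank Qb
        ↥(riemannRochSpace (((m + 1 : ℕ) : ℤ) • Finsupp.single (infPlace N) (1 : ℤ))) : ℕ) : ℤ) =
        ((Module.finrank Qb
          ↥(riemannRochSpace ((m : ℤ) • Finsupp.single (infPlace N) (1 : ℤ))) + 1 : ℕ) : ℤ) := by
      push_cast at hVr ⊢
      linarith
    exact_mod_cast h
  obtain ⟨n', b', hb'fix, hb'li, hb'⟩ := exists_rational_basis N
    ((m : ℤ) • Finsupp.single (infPlace N) (1 : ℤ)) (galois_smul_zsmul_infPlace N _)
  obtain ⟨n, b, hbfix, -, hb⟩ := exists_rational_basis N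
    (((m + 1 : ℕ) : ℤ) • Finsupp.single (infPlace N) (1 : ℤ)) (galois_smul_zsmul_infPlace N _)
  obtain ⟨i₀, j, hli, hspan, hord, huW, hn'⟩ :=
    exists_flag_basis htr (infPlace N) hfr b' hb'li hb' b hb
  refine ⟨n', Fin.snoc (α := fun _ => Fb N) (Function.update b' i₀ 1) (b j), i₀.castSucc,
    ?_, hli, hspan, ?_, ?_, ?_, ?_, ?_⟩
  · intro i σ
    refine Fin.lastCases ?_ (fun k => ?_) i
    · rw [Fin.snoc_last]
      exact hbfix j σ
    · rw [Fin.snoc_castSucc]
      by_cases hk : k = i₀
      · rw [hk, Function.update_self]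
        exact smul_one _
      · rw [Function.update_of_ne hk]
        exact hb'fix k σ
  · rw [Fin.snoc_castSucc, Function.update_self]
  · exact (Fin.castSucc_lt_last i₀).ne
  · rw [Fin.snoc_last]
    exact hord
  · intro i hi
    obtain ⟨k, rfl⟩ : ∃ k : Fin n', k.castSucc = i := Fin.exists_castSucc_eq.mpr hi
    rw [Fin.snoc_castSucc]
    have h := neg_le_ord_of_mem (huW k)
    push_cast
    linarith
  · rw [hn', hWr]
    push_cast
    ring

end Modular

end Fermat.Agent.S17.H.GoodPhi
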