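import Mathlib
import Fermat.Agent.S17.H.X.GoodPhi

/-!
# S17, strand H, seam leaf X.phi (second half): the coordinate `x` and the family `φ` with
a prescribed top element

* `exists_good_x` : for every large `n0` a Galois-fixed `x ∈ L(n0 · ∞)` of order exactly `-n0`
  at the cusp `∞` of `Fb N`.
* `exists_good_phi_top` : the family `φ` of `GoodPhi.exists_good_phi` with a PRESCRIBED last
  member `t` (any Galois-fixed `t ∈ L(m0 · ∞)` of order exactly `-m0`).
* `exists_x_phi` : the package for the exit: `n0 ≥ 2`, `x`, and for every large `k` the family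
  `φ` for `m0 = k * n0` whose last member is `x ^ k`.
-/

set_option autoImplicit false

namespace Fermat.Agent.S17.H.GoodX

open AlgebraicCurve ModularCurve
open Fermat.Agent.S17.R
open Fermat.Agent.S17.H.GoodPhi

section LevelFree

variable {K F : Type*} [Field K] [Field F] [Algebra K F]

/-- **Exchange.**  A spanning family of `L(m v₀)` may be changed at one index into `1`. -/
theorem exists_update_one (v₀ : Place K F) {m n' : ℕ} (b' : Fin n' → F)
    (hb' : Submodule.span K (Set.range b') =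
      riemannRochSpace ((m : ℤ) • Finsupp.single v₀ (1 : ℤ))) :
    ∃ i₀ : Fin n', Submodule.span K (Set.range (Function.update b' i₀ 1)) =
      riemannRochSpace ((m : ℤ) • Finsupp.single v₀ (1 : ℤ)) := by
  classical
  have h1W : (1 : F) ∈ Submodule.span K (Set.range b') := by
    rw [hb']
    exact one_mem v₀ m
  obtain ⟨c, hc⟩ := (Submodule.mem_span_range_iff_exists_fun K).mp h1W
  have hex0 : ∃ i₀, c i₀ ≠ 0 := by
    by_contra hcon
    have hall : ∀ i, c i = 0 := fun i => by_contra fun h => hcon ⟨i, h⟩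
    have h10 : (1 : F) = 0 := by
      rw [← hc]
      exact Finset.sum_eq_zero fun i _ => by rw [hall i, zero_smul]
    exact one_ne_zero h10
  obtain ⟨i₀, hi₀⟩ := hex0
  refine ⟨i₀, ?_⟩
  have hu_self : Function.update b' i₀ 1 i₀ = 1 := Function.update_self _ _ _
  have hu_ne : ∀ i, i ≠ i₀ → Function.update b' i₀ 1 i = b' i :=
    fun i hi => Function.update_of_ne hi _ _
  apply le_antisymm
  · refine Submodule.span_le.mpr ?_
    rintro _ ⟨i, rfl⟩
    by_cases hi : i = i₀
    · rw [hi]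
      show Function.update b' i₀ 1 i₀ ∈ _
      rw [hu_self]
      exact one_mem v₀ m
    · show Function.update b' i₀ 1 i ∈ _
      rw [hu_ne i hi, ← hb']
      exact Submodule.subset_span ⟨i, rfl⟩
  · rw [← hb']
    refine Submodule.span_le.mpr ?_
    rintro _ ⟨i, rfl⟩
    have hmem_ne : ∀ k, k ≠ i₀ →
        b' k ∈ Submodule.span K (Set.range (Function.update b' i₀ 1)) := by
      intro k hk
      have h : Function.update b' i₀ 1 k ∈
          Submodule.span K (Set.range (Function.update b' i₀ 1)) :=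
        Submodule.subset_span ⟨k, rfl⟩
      rwa [hu_ne k hk] at h
    by_cases hi : i = i₀
    · have hsum : c i₀ • b' i₀ = 1 - ∑ k ∈ Finset.univ.erase i₀, c k • b' k := by
        rw [← hc, ← Finset.add_sum_erase Finset.univ (fun k => c k • b' k) (Finset.mem_univ i₀)]
        exact (add_sub_cancel_right _ _).symm
      have hb'i₀ : b' i₀ = (c i₀)⁻¹ • (1 - ∑ k ∈ Finset.univ.erase i₀, c k • b' k) := by
        rw [← hsum, inv_smul_smul₀ hi₀]
      rw [hi]
      show b' i₀ ∈ _
      rw [hb'i₀]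
      refine Submodule.smul_mem _ _ (Submodule.sub_mem _ ?_ ?_)
      · have h : Function.update b' i₀ 1 i₀ ∈
            Submodule.span K (Set.range (Function.update b' i₀ 1)) :=
          Submodule.subset_span ⟨i₀, rfl⟩
        rwa [hu_self] at h
      · exact Submodule.sum_mem _ fun k hk =>
          Submodule.smul_mem _ _ (hmem_ne k (Finset.ne_of_mem_erase hk))
    · exact hmem_ne i hi

/-- **Adding the top element.**  If `l((m+1) v₀) = l(m v₀) + 1`, a spanning family `u` of
`L(m v₀)` with `l(m v₀)` members and any `t ∈ L((m+1) v₀)` of order exactly `-(m+1)` at `v₀`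
give the basis `Fin.snoc u t` of `L((m+1) v₀)`. -/
theorem snoc_basis [IsAlgClosed K] [CharZero K] [Algebra.EssFiniteType K F]
    (htr : Algebra.trdeg K F = 1) (v₀ : Place K F) {m : ℕ}
    (hfr : Module.finrank K ↥(riemannRochSpace (((m + 1 : ℕ) : ℤ) • Finsupp.single v₀ (1 : ℤ))) =
      Module.finrank K ↥(riemannRochSpace ((m : ℤ) • Finsupp.single v₀ (1 : ℤ))) + 1)
    {n' : ℕ} (u : Fin n' → F)
    (hu : Submodule.span K (Set.range u) =
      riemannRochSpace ((m : ℤ) • Finsupp.single v₀ (1 : ℤ)))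
    (hn' : n' = Module.finrank K ↥(riemannRochSpace ((m : ℤ) • Finsupp.single v₀ (1 : ℤ))))
    {t : F} (ht : t ∈ riemannRochSpace (((m + 1 : ℕ) : ℤ) • Finsupp.single v₀ (1 : ℤ)))
    (htop : v₀.ord t = -((m + 1 : ℕ) : ℤ)) :
    LinearIndependent K (Fin.snoc (α := fun _ => F) u t) ∧
      Submodule.span K (Set.range (Fin.snoc (α := fun _ => F) u t)) =
        riemannRochSpace (((m + 1 : ℕ) : ℤ) • Finsupp.single v₀ (1 : ℤ)) := by
  classical
  have hfinV : Module.Finite K
      ↥(riemannRochSpace (((m + 1 : ℕ) : ℤ) • Finsupp.single v₀ (1 : ℤ))) := finite_L htr _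
  have hfinW : Module.Finite K
      ↥(riemannRochSpace ((m : ℤ) • Finsupp.single v₀ (1 : ℤ))) := finite_L htr _
  have hWV := L_nsmul_le_succ (K := K) (F := F) v₀ m
  have hj : t ∉ riemannRochSpace ((m : ℤ) • Finsupp.single v₀ (1 : ℤ)) := by
    intro h
    have h1 := neg_le_ord_of_mem h
    omega
  have huW : ∀ i, u i ∈ riemannRochSpace ((m : ℤ) • Finsupp.single v₀ (1 : ℤ)) := by
    intro i
    rw [← hu]
    exact Submodule.subset_span ⟨i, rfl⟩
  have hφc : ∀ i : Fin n', Fin.snoc (α := fun _ => F) u t i.castSucc = u i :=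
    fun i => Fin.snoc_castSucc _ _ _
  have hφl : Fin.snoc (α := fun _ => F) u t (Fin.last n') = t := Fin.snoc_last _ _
  have hφV : Submodule.span K (Set.range (Fin.snoc (α := fun _ => F) u t)) ≤
      riemannRochSpace (((m + 1 : ℕ) : ℤ) • Finsupp.single v₀ (1 : ℤ)) := by
    refine Submodule.span_le.mpr ?_
    rintro _ ⟨i, rfl⟩
    refine Fin.lastCases ?_ (fun k => ?_) i
    · rw [hφl]
      exact ht
    · rw [hφc]
      exact hWV (huW k)
  have hWφ : riemannRochSpace ((m : ℤ) • Finsupp.single v₀ (1 : ℤ)) ≤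
      Submodule.span K (Set.range (Fin.snoc (α := fun _ => F) u t)) := by
    rw [← hu]
    refine Submodule.span_le.mpr ?_
    rintro _ ⟨i, rfl⟩
    have h : Fin.snoc (α := fun _ => F) u t i.castSucc ∈
        Submodule.span K (Set.range (Fin.snoc (α := fun _ => F) u t)) :=
      Submodule.subset_span ⟨_, rfl⟩
    rwa [hφc] at h
  have hlt : riemannRochSpace ((m : ℤ) • Finsupp.single v₀ (1 : ℤ)) <
      Submodule.span K (Set.range (Fin.snoc (α := fun _ => F) u t)) := by
    refine lt_of_le_of_ne hWφ fun heq => hj ?_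
    have h : Fin.snoc (α := fun _ => F) u t (Fin.last n') ∈
        Submodule.span K (Set.range (Fin.snoc (α := fun _ => F) u t)) :=
      Submodule.subset_span ⟨_, rfl⟩
    rw [hφl] at h
    rw [heq]
    exact h
  have hspanφ : Submodule.span K (Set.range (Fin.snoc (α := fun _ => F) u t)) =
      riemannRochSpace (((m + 1 : ℕ) : ℤ) • Finsupp.single v₀ (1 : ℤ)) := by
    have : Module.Finite K ↥(Submodule.span K (Set.range (Fin.snoc (α := fun _ => F) u t))) :=
      Submodule.finiteDimensional_of_le hφV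
    have h1 := Submodule.finrank_lt_finrank_of_lt hlt
    exact Submodule.eq_of_le_of_finrank_le hφV (by omega)
  refine ⟨?_, hspanφ⟩
  rw [linearIndependent_iff_card_eq_finrank_span, Fintype.card_fin, Set.finrank, hspanφ]
  omega

end LevelFree

section Modular

local notation "Qb" => AlgebraicClosure ℚ
local notation "Fb" => modularFunctionFieldBar

/-- **The coordinate `x`.**  For every large `n0` there is a Galois-fixed `x ∈ L(n0 · ∞)` of
order exactly `-n0` at the cusp `∞`. -/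
theorem exists_good_x (N : ℕ) [NeZero N] :
    ∃ n₁ : ℕ, ∀ n0 : ℕ, n₁ ≤ n0 → ∃ x : Fb N,
      (∀ σ : Qb ≃ₐ[ℚ] Qb, arithmeticGalois (modularFunctionFieldFull N) σ • x = x) ∧
      x ∈ riemannRochSpace ((n0 : ℤ) • Finsupp.single (infPlace N) (1 : ℤ)) ∧
      (infPlace N).ord x = -(n0 : ℤ) := by
  obtain ⟨n₀, h⟩ := exists_good_phi N
  refine ⟨n₀, fun n0 hn0 => ?_⟩
  obtain ⟨r, φ, i1, hfix, -, hspan, -, -, htop, -, -⟩ := h n0 hn0
  refine ⟨φ (Fin.last r), hfix _, ?_, htop⟩
  rw [← hspan]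
  exact Submodule.subset_span ⟨_, rfl⟩

/-- **The good family with a prescribed top element.**  For every large `m0` and every
Galois-fixed `t ∈ L(m0 · ∞)` of order exactly `-m0` at `∞`, there is a basis
`φ : Fin (r + 1) → Fb N` of `L(m0 · ∞)` made of Galois-fixed functions, containing `1` at an
index which is not the last one, with last member `t`, all of whose other members have order at
least `-(m0 - 1)`; and `r + 1 = m0 + 1 - g`. -/
theorem exists_good_phi_top (N : ℕ) [NeZero N] :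
    ∃ n₀ : ℕ, ∀ m0 : ℕ, n₀ ≤ m0 → ∀ t : Fb N,
      (∀ σ : Qb ≃ₐ[ℚ] Qb, arithmeticGalois (modularFunctionFieldFull N) σ • t = t) →
      t ∈ riemannRochSpace ((m0 : ℤ) • Finsupp.single (infPlace N) (1 : ℤ)) →
      (infPlace N).ord t = -(m0 : ℤ) →
      ∃ (r : ℕ) (φ : Fin (r + 1) → Fb N) (i1 : Fin (r + 1)),
        (∀ i, ∀ σ : Qb ≃ₐ[ℚ] Qb,
          arithmeticGalois (modularFunctionFieldFull N) σ • φ i = φ i) ∧
        LinearIndependent Qb φ ∧
        Submodule.span Qb (Set.range φ) =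
          riemannRochSpace ((m0 : ℤ) • Finsupp.single (infPlace N) (1 : ℤ)) ∧
        φ i1 = 1 ∧ i1 ≠ Fin.last r ∧
        φ (Fin.last r) = t ∧
        (∀ i, i ≠ Fin.last r → -((m0 : ℤ) - 1) ≤ (infPlace N).ord (φ i)) ∧
        ((r : ℤ) + 1 = (m0 : ℤ) + 1 - (gR Qb (Fb N) : ℤ)) := by
  classical
  have htr := Fermat.Agent.S30.HeckeInputs.trdeg_bar N
  obtain ⟨n₁, hn₁⟩ := finrank_L_nsmul_single (K := Qb) (F := Fb N) htr (infPlace N)
  refine ⟨n₁ + 1, fun m0 hm0 t htfix htL htord => ?_⟩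
  obtain ⟨m, rfl⟩ : ∃ m, m0 = m + 1 := ⟨m0 - 1, by omega⟩
  have hWr := hn₁ m (by omega)
  have hVr := hn₁ (m + 1) (by omega)
  have hfr : Module.finrank Qb
      ↥(riemannRochSpace (((m + 1 : ℕ) : ℤ) • Finsupp.single (infPlace N) (1 : ℤ))) =
      Module.finrank Qb
        ↥(riemannRochSpace ((m : ℤ) • Finsupp.single (infPlace N) (1 : ℤ))) + 1 := by
    have h : ((Module.finrank Qb
        ↥(riemannRochSpace (((m + 1 : ℕ) : ℤ) • Finsupp.single (infPlace N) (1 : ℤ))) : ℕ) : ℤ) =
        ((Module.finrank Qb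
          ↥(riemannRochSpace ((m : ℤ) • Finsupp.single (infPlace N) (1 : ℤ))) + 1 : ℕ) : ℤ) := by
      push_cast at hVr ⊢
      linarith
    exact_mod_cast h
  obtain ⟨n', b', hb'fix, hb'li, hb'⟩ := exists_rational_basis N
    ((m : ℤ) • Finsupp.single (infPlace N) (1 : ℤ)) (galois_smul_zsmul_infPlace N _)
  have hn' : n' = Module.finrank Qb
      ↥(riemannRochSpace ((m : ℤ) • Finsupp.single (infPlace N) (1 : ℤ))) := by
    have h := finrank_span_eq_card hb'li
    rw [hb', Fintype.card_fin] at h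
    exact h.symm
  obtain ⟨i₀, hu⟩ := exists_update_one (infPlace N) b' hb'
  obtain ⟨hli, hspan⟩ := snoc_basis htr (infPlace N) hfr (Function.update b' i₀ 1) hu hn'
    htL htord
  have huW : ∀ i, Function.update b' i₀ 1 i ∈
      riemannRochSpace ((m : ℤ) • Finsupp.single (infPlace N) (1 : ℤ)) := by
    intro i
    rw [← hu]
    exact Submodule.subset_span ⟨i, rfl⟩
  refine ⟨n', Fin.snoc (α := fun _ => Fb N) (Function.update b' i₀ 1) t, i₀.castSucc,
    ?_, hli, hspan, ?_, ?_, ?_, ?_, ?_⟩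
  · intro i σ
    refine Fin.lastCases ?_ (fun k => ?_) i
    · rw [Fin.snoc_last]
      exact htfix σ
    · rw [Fin.snoc_castSucc]
      by_cases hk : k = i₀
      · rw [hk, Function.update_self]
        exact smul_one _
      · rw [Function.update_of_ne hk]
        exact hb'fix k σ
  · rw [Fin.snoc_castSucc, Function.update_self]
  · exact (Fin.castSucc_lt_last i₀).ne
  · rw [Fin.snoc_last]
  · intro i hi
    obtain ⟨k, rfl⟩ : ∃ k : Fin n', k.castSucc = i := Fin.exists_castSucc_eq.mpr hi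
    rw [Fin.snoc_castSucc]
    have h := neg_le_ord_of_mem (huW k)
    push_cast
    linarith
  · rw [hn', hWr]
    push_cast
    ring

/-- The powers of a Galois-fixed `x ∈ L(n0 · ∞)` of order exactly `-n0`: `x ^ k` is Galois-fixed,
lies in `L(k n0 · ∞)` and has order exactly `-(k n0)` at `∞`. -/
theorem pow_data (N : ℕ) [NeZero N] {x : Fb N} {n0 : ℕ}
    (hfix : ∀ σ : Qb ≃ₐ[ℚ] Qb, arithmeticGalois (modularFunctionFieldFull N) σ • x = x)
    (hxL : x ∈ riemannRochSpace ((n0 : ℤ) • Finsupp.single (infPlace N) (1 : ℤ)))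
    (hord : (infPlace N).ord x = -(n0 : ℤ)) (k : ℕ) :
    (∀ σ : Qb ≃ₐ[ℚ] Qb, arithmeticGalois (modularFunctionFieldFull N) σ • x ^ k = x ^ k) ∧
      x ^ k ∈ riemannRochSpace (((k * n0 : ℕ) : ℤ) • Finsupp.single (infPlace N) (1 : ℤ)) ∧
      (infPlace N).ord (x ^ k) = -((k * n0 : ℕ) : ℤ) := by
  refine ⟨fun σ => ?_, ?_, ?_⟩
  · rw [smul_pow', hfix σ]
  · have h := RiemannAux.pow_mem_L hxL k
    have he : k • ((n0 : ℤ) • Finsupp.single (infPlace N) (1 : ℤ) : Divisor Qb (Fb N)) =
        ((k * n0 : ℕ) : ℤ) • Finsupp.single (infPlace N) (1 : ℤ) := by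
      rw [Nat.cast_mul, mul_smul]
      exact (natCast_zsmul _ k).symm
    rwa [he] at h
  · rw [← zpow_natCast, Place.ord_zpow, hord]
    push_cast
    ring

/-- **The package for the exit.**  A degree `n0 ≥ 2`, a Galois-fixed coordinate
`x ∈ L(n0 · ∞)` of order exactly `-n0` at `∞`, and for every large `k` the good family `φ` of
`L(k n0 · ∞)` whose last member is `x ^ k`. -/
theorem exists_x_phi (N : ℕ) [NeZero N] :
    ∃ (n0 : ℕ) (x : Fb N), 2 ≤ n0 ∧
      (∀ σ : Qb ≃ₐ[ℚ] Qb, arithmeticGalois (modularFunctionFieldFull N) σ • x = x) ∧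
      x ∈ riemannRochSpace ((n0 : ℤ) • Finsupp.single (infPlace N) (1 : ℤ)) ∧
      (infPlace N).ord x = -(n0 : ℤ) ∧
      ∃ k₀ : ℕ, ∀ k : ℕ, k₀ ≤ k →
        ∃ (r : ℕ) (φ : Fin (r + 1) → Fb N) (i1 : Fin (r + 1)),
          (∀ i, ∀ σ : Qb ≃ₐ[ℚ] Qb,
            arithmeticGalois (modularFunctionFieldFull N) σ • φ i = φ i) ∧
          LinearIndependent Qb φ ∧
          Submodule.span Qb (Set.range φ) =
            riemannRochSpace (((k * n0 : ℕ) : ℤ) • Finsupp.single (infPlace N) (1 : ℤ)) ∧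
          φ i1 = 1 ∧ i1 ≠ Fin.last r ∧
          φ (Fin.last r) = x ^ k ∧
          (infPlace N).ord (φ (Fin.last r)) = -((k * n0 : ℕ) : ℤ) ∧
          (∀ i, i ≠ Fin.last r → -(((k * n0 : ℕ) : ℤ) - 1) ≤ (infPlace N).ord (φ i)) ∧
          ((r : ℤ) + 1 = ((k * n0 : ℕ) : ℤ) + 1 - (gR Qb (Fb N) : ℤ)) := by
  obtain ⟨n₁, hx⟩ := exists_good_x N
  obtain ⟨n₀, hφ⟩ := exists_good_phi_top N
  obtain ⟨x, hxfix, hxL, hxord⟩ := hx (max n₁ 2) (le_max_left _ _)
  refine ⟨max n₁ 2, x, le_max_right _ _, hxfix, hxL, hxord, n₀, fun k hk => ?_⟩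
  obtain ⟨hpfix, hpL, hpord⟩ := pow_data N hxfix hxL hxord k
  have hle : n₀ ≤ k * max n₁ 2 := by
    have h2 : 1 ≤ max n₁ 2 := le_trans (by norm_num) (le_max_right n₁ 2)
    calc n₀ ≤ k := hk
      _ = k * 1 := (mul_one k).symm
      _ ≤ k * max n₁ 2 := Nat.mul_le_mul_left k h2
  obtain ⟨r, φ, i1, hfix, hli, hspan, h1, hi1, hlast, htop1, hdim⟩ :=
    hφ (k * max n₁ 2) hle (x ^ k) hpfix hpL hpord
  exact ⟨r, φ, i1, hfix, hli, hspan, h1, hi1, hlast, by rw [hlast]; exact hpord, htop1, hdim⟩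

end Modular

end Fermat.Agent.S17.H.GoodX
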