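import Mathlib
import Fermat.Agent.S17.H.ExitOfExits
import Fermat.Agent.S17.H.Pos.PlaceNorthcott
import Fermat.Agent.S17.H.X.GoodX

/-!
# S17, strand H, exit seam: `HeightDescent N` from the exits of D1, D2, F1, F2, F3 for the
heights of record of ONE good family `φ` and the coordinate `x`

`H.heightDescent_of_exits` (the exit from the exits of the leaves) still has the hypotheses
`hNor` (bounded-orbit Northcott), `hreg`, `hpole` (the function `t`) and `0 < m₀`.  For the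
family `φ` and the coordinate `x` of `GoodX.exists_x_phi` these are discharged here:

* `heightDescent_of_phi` : for `φ : Fin (r + 1) → Fb N` with `φ i1 = 1` whose last member is
  Galois-fixed with a pole of exact order `m₀ > 0` at `∞`, and `x ∈ L(n0 ∞)` of exact pole
  order `n0 ≥ 2`: the exits of D1 (Chow), D2 (global distance formula), F1, F3, F2 (for
  `t := x`) for the heights of record `Glob.plH Glob.evalAt φ m₀`, `Glob.plD Glob.evalAt φ`
  give `HeightDescent N`.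
* `heightDescent_of_x_phi` : the same in the quantifier order in which `GoodX.exists_x_phi`
  produces the data: the blocks see the coordinate `x` and its degree `n0`, name a threshold
  `k₁`, and are then asked for ONE `k ≥ k₁` chosen by the exit (`m₀ = k * n0`, top `x ^ k`).
-/

set_option autoImplicit false

namespace Fermat.Agent.S17.H.X.ExitOfPhi

open AlgebraicCurve ModularCurve Fermat.Agent.S17 Fermat.Agent.S17.R
open Fermat.Agent.S17.H.Glob

local notation "Qb" => AlgebraicClosure ℚ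
local notation "Fb" => modularFunctionFieldBar

/-- A function with a pole at `∞` is not a constant. -/
theorem notMem_range_of_ord (N : ℕ) [NeZero N] {f : Fb N} {m₀ : ℕ} (hm : m₀ ≠ 0)
    (htop : (infPlace N).ord f = -(m₀ : ℤ)) : f ∉ Set.range (algebraMap Qb (Fb N)) := by
  rintro ⟨c, rfl⟩
  rw [Fermat.Agent.S24.FF.ord_algebraMap] at htop
  omega

/-- A member of `L(n0 ∞)` is regular off `∞`. -/
theorem ord_nonneg_of_mem (N : ℕ) [NeZero N] {x : Fb N} {n0 : ℕ}
    (hxL : x ∈ riemannRochSpace ((n0 : ℤ) • Finsupp.single (infPlace N) (1 : ℤ)))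
    (v : Place Qb (Fb N)) (hv : v ≠ infPlace N) : 0 ≤ v.ord x := by
  rcases mem_L_iff.mp hxL with h | h
  · rw [h, Place.ord_zero]
  · have h1 := h v
    rw [GoodPhi.nsmul_apply_of_ne hv] at h1
    omega

/-- The exit of D1 (the conclusion of `Glob.chow`) for the family `φ`. -/
def ChowHyp (N : ℕ) [NeZero N] {r : ℕ} (φ : Fin r → Fb N) (m₀ : ℕ) : Prop :=
  ∀ (M n : ℕ) (ψ : Fin n → Fb N), LinearIndependent Qb ψ →
    (∀ i, ψ i ∈ riemannRochSpace ((M : ℤ) • Finsupp.single (infPlace N) (1 : ℤ))) →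
    ∃ C : ℝ, ∀ c : Fin n → Qb, c ≠ 0 →
      |(∑ᶠ v ∈ {v : Place Qb (Fb N) | v ≠ infPlace N},
          ((v.ord (∑ i, c i • ψ i) : ℤ) : ℝ) * hT (fun i => evalAt v (φ i))) / (m₀ : ℝ)
        - hT c| ≤ C

/-- The exit of D2 (the conclusion of `Glob.ld_global`) for the family `φ`. -/
def LDHyp (N : ℕ) [NeZero N] {r : ℕ} (φ : Fin r → Fb N) (m₀ : ℕ) : Prop :=
  ∀ k : ℕ, 0 < k → ∀ (n : ℕ) (ψ : Fin n → Fb N), LinearIndependent Qb ψ →
    Submodule.span Qb (Set.range ψ)
      = riemannRochSpace (((k * m₀ : ℕ) : ℤ) • Finsupp.single (infPlace N) (1 : ℤ)) →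
    ∃ C : ℝ, ∀ c : Fin n → Qb, c ≠ 0 → ∀ Q : Place Qb (Fb N), Q ≠ infPlace N →
      Q.ord (∑ i, c i • ψ i) = 0 →
      |(∑ᶠ v ∈ {v : Place Qb (Fb N) | v ≠ infPlace N},
          ((v.ord (∑ i, c i • ψ i) : ℤ) : ℝ) * plD evalAt φ v Q)
        - hT c
        + (((infPlace N).ord (∑ i, c i • ψ i) : ℤ) : ℝ)
          * (hT (fun i => evalAt Q (φ i)) / (m₀ : ℝ))| ≤ C

/-- **Exit of strand H for one family `φ` and the coordinate `x`.** -/
theorem heightDescent_of_phi (N : ℕ) [NeZero N] {r : ℕ} (φ : Fin (r + 1) → Fb N)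
    (i1 : Fin (r + 1)) {m₀ : ℕ} (hm : 0 < m₀) (h1 : φ i1 = 1)
    (hfix : ∀ σ : Qb ≃ₐ[ℚ] Qb,
      arithmeticGalois (modularFunctionFieldFull N) σ • φ (Fin.last r) = φ (Fin.last r))
    (htop : (infPlace N).ord (φ (Fin.last r)) = -(m₀ : ℤ))
    {n0 : ℕ} {x : Fb N} (hn0 : 2 ≤ n0)
    (hxL : x ∈ riemannRochSpace ((n0 : ℤ) • Finsupp.single (infPlace N) (1 : ℤ)))
    (hxord : (infPlace N).ord x = -(n0 : ℤ))
    (hD1 : ChowHyp N φ m₀) (hD2 : LDHyp N φ m₀)
    (hF1 : F.ResidualBound (infPlace N) (plH evalAt φ m₀) (plD evalAt φ))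
    (hF3 : F.FibreBound x (plH evalAt φ m₀) (plD evalAt φ))
    (hF2 : F.FibrePairBound x (plH evalAt φ m₀) (plD evalAt φ)) : HeightDescent N :=
  heightDescent_of_exits N φ hm evalAt (ord_nonneg_of_mem N hxL)
    (by rw [hxord]; omega)
    (Pos.PlaceNorthcott.plH_evalAt_orbit_northcott N φ (Nat.pos_iff_ne_zero.mp hm) h1 hfix
      (notMem_range_of_ord N (Nat.pos_iff_ne_zero.mp hm) htop))
    hD1 hD2 hF1 hF3 hF2

/-- **Exit of strand H in the quantifier order of `GoodX.exists_x_phi`.**  The blocks see the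
coordinate `x` (Galois-fixed, in `L(n0 ∞)`, exact pole order `n0 ≥ 2`), name a threshold `k₁`,
and must then deliver D1, D2, F1, F3, F2 for every good family `φ` of `L(k n0 ∞)` with top
`x ^ k`, `k ≥ k₁`. -/
theorem heightDescent_of_x_phi (N : ℕ) [NeZero N]
    (hblocks : ∀ (n0 : ℕ) (x : Fb N), 2 ≤ n0 →
      (∀ σ : Qb ≃ₐ[ℚ] Qb, arithmeticGalois (modularFunctionFieldFull N) σ • x = x) →
      x ∈ riemannRochSpace ((n0 : ℤ) • Finsupp.single (infPlace N) (1 : ℤ)) →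
      (infPlace N).ord x = -(n0 : ℤ) →
      ∃ k₁ : ℕ, ∀ k : ℕ, k₁ ≤ k → ∀ (r : ℕ) (φ : Fin (r + 1) → Fb N) (i1 : Fin (r + 1)),
        (∀ i, ∀ σ : Qb ≃ₐ[ℚ] Qb,
          arithmeticGalois (modularFunctionFieldFull N) σ • φ i = φ i) →
        LinearIndependent Qb φ →
        Submodule.span Qb (Set.range φ) =
          riemannRochSpace (((k * n0 : ℕ) : ℤ) • Finsupp.single (infPlace N) (1 : ℤ)) →
        φ i1 = 1 → i1 ≠ Fin.last r →
        φ (Fin.last r) = x ^ k →
        (infPlace N).ord (φ (Fin.last r)) = -((k * n0 : ℕ) : ℤ) →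
        (∀ i, i ≠ Fin.last r → -(((k * n0 : ℕ) : ℤ) - 1) ≤ (infPlace N).ord (φ i)) →
        ((r : ℤ) + 1 = ((k * n0 : ℕ) : ℤ) + 1 - (gR Qb (Fb N) : ℤ)) →
        ChowHyp N φ (k * n0) ∧ LDHyp N φ (k * n0) ∧
          F.ResidualBound (infPlace N) (plH evalAt φ (k * n0)) (plD evalAt φ) ∧
          F.FibreBound x (plH evalAt φ (k * n0)) (plD evalAt φ) ∧
          F.FibrePairBound x (plH evalAt φ (k * n0)) (plD evalAt φ)) :
    HeightDescent N := by
  obtain ⟨n0, x, hn0, hxfix, hxL, hxord, k₀, hφ⟩ := GoodX.exists_x_phi N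
  obtain ⟨k₁, hk₁⟩ := hblocks n0 x hn0 hxfix hxL hxord
  obtain ⟨r, φ, i1, hfix, hli, hspan, h1, hi1, hlast, htop, htop1, hdim⟩ :=
    hφ (max (max k₀ k₁) 1) (le_trans (le_max_left _ _) (le_max_left _ _))
  obtain ⟨hD1, hD2, hF1, hF3, hF2⟩ := hk₁ (max (max k₀ k₁) 1)
    (le_trans (le_max_right _ _) (le_max_left _ _)) r φ i1 hfix hli hspan h1 hi1 hlast htop
    htop1 hdim
  have hk1 : 1 ≤ max (max k₀ k₁) 1 := le_max_right _ _
  have hm : 0 < max (max k₀ k₁) 1 * n0 := Nat.mul_pos (by omega) (by omega)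
  exact heightDescent_of_phi N φ i1 hm h1 (hfix _) htop hn0 hxL hxord hD1 hD2 hF1 hF3 hF2

end Fermat.Agent.S17.H.X.ExitOfPhi
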